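import Fermat.Agent.S37.Core.PlaceRed

/-!
# S37 row (helper37): the Layer-2 interface `GeoRed` (definitions only)

Notation: `A` a valuation subring of `ℚ̄` over `ℓ`, `k = A/𝔪`, `F = ℚ̄(X₀(N))`
(`modularFunctionFieldBar N ⊆ ℚ̄((q))`), `F_k = modularFunctionFieldFullC k N ⊆ k((q))`.

* `HasValue P f b` : the function `f` is regular at the place `P` with value `b`.
* `IntElt A N` : a q-series `y ∈ A((q))` lying in `F` whose reduction lies in `F_k`.
* `IntElt.IsFin` / `IsInf` : `y` is integral over `A[j]` / over `A[j⁻¹]` (inside `A((q))`).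
* `GeoRed A N` : a place reduction map `r` with the Prelude spec (`isRed`, `gen`) and
  - `vc_fin`/`vc_inf` (value compatibility): for `f` integral over `A[j]` and `P` with `j(P) ∈ A`,
    `f(P) = b` implies `f̄(r P) = b̄`; same at infinity;
  - `sep_fin`/`sep_inf` (separation, = normality of the special fibre of the model): two places
    of `F_k` at which all reductions `f̄` take the same values are equal.
-/

set_option autoImplicit false
set_option synthInstance.maxHeartbeats 400000

noncomputable section

namespace Fermat.Agent.S37.Core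

open ModularCurve ValuationSubring AlgebraicCurve HahnSeries

/-- `f` is regular at `P` with value `b` -/
def HasValue {K F : Type*} [Field K] [Field F] [Algebra K F] (P : Place K F) (f : F) (b : K) :
    Prop :=
  f - algebraMap K F b ∈ P.toValuationSubring.nonunits

section

variable (A : ValuationSubring (AlgebraicClosure ℚ)) (N : ℕ)

/-- an `A`-integral q-series lying in `F = ℚ̄(X₀(N))` with reduction in `F_k` -/
structure IntElt where
  /-- the q-series -/
  y : LaurentSeries A
  mem : coeffMap A.subtype y ∈ modularFunctionFieldBar N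
  memk : coeffMap (IsLocalRing.residue A) y ∈
    modularFunctionFieldFullC (IsLocalRing.ResidueField A) N

variable {A N}

/-- the function in characteristic `0` -/
def IntElt.gen (c : IntElt A N) : modularFunctionFieldBar N := ⟨coeffMap A.subtype c.y, c.mem⟩

/-- the reduced function -/
def IntElt.sp (c : IntElt A N) : modularFunctionFieldFullC (IsLocalRing.ResidueField A) N :=
  ⟨coeffMap (IsLocalRing.residue A) c.y, c.memk⟩

variable (A) in
/-- evaluation `A[X] → A((q))`, `X ↦ u` -/
def evalSeries (u : LaurentSeries A) : Polynomial A →+* LaurentSeries A :=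
  Polynomial.eval₂RingHom (HahnSeries.C : A →+* LaurentSeries A) u

/-- `y` is integral over `A[j]` -/
def IntElt.IsFin (c : IntElt A N) : Prop :=
  ∃ p : Polynomial (Polynomial A), p.Monic ∧ p.eval₂ (evalSeries A (jqModC A)) c.y = 0

/-- `y` is integral over `A[j⁻¹]` -/
def IntElt.IsInf (c : IntElt A N) : Prop :=
  ∃ u : LaurentSeries A, u * jqModC A = 1 ∧
    ∃ p : Polynomial (Polynomial A), p.Monic ∧ p.eval₂ (evalSeries A u) c.y = 0

variable (A N) in
/-- **Layer-2 interface**: a geometric place reduction map. -/
structure GeoRed [NeZero N] : Type where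
  /-- the reduction map on places -/
  r : Place (AlgebraicClosure ℚ) (modularFunctionFieldBar N) →
    Place (IsLocalRing.ResidueField A) (modularFunctionFieldFullC (IsLocalRing.ResidueField A) N)
  isRed : IsPlaceReductionModL A N r
  gen : PrincipalGeneratedByIntegral A (IsLocalRing.residue A) N
  vc_fin : ∀ j : IntElt A N, j.y = jqModC A → ∀ c : IntElt A N, c.IsFin →
    ∀ (P : Place (AlgebraicClosure ℚ) (modularFunctionFieldBar N)) (a b : A),
      HasValue P j.gen a → HasValue P c.gen b → HasValue (r P) c.sp (IsLocalRing.residue A b)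
  vc_inf : ∀ j : IntElt A N, j.y * jqModC A = 1 → ∀ c : IntElt A N, c.IsInf →
    ∀ (P : Place (AlgebraicClosure ℚ) (modularFunctionFieldBar N)) (a b : A),
      HasValue P j.gen a → HasValue P c.gen b → HasValue (r P) c.sp (IsLocalRing.residue A b)
  sep_fin : ∀ j : IntElt A N, j.y = jqModC A →
    ∀ (Q Q' : Place (IsLocalRing.ResidueField A)
      (modularFunctionFieldFullC (IsLocalRing.ResidueField A) N)) (a : IsLocalRing.ResidueField A),
      HasValue Q j.sp a →
      (∀ c : IntElt A N, c.IsFin → ∀ b : IsLocalRing.ResidueField A,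
        HasValue Q c.sp b → HasValue Q' c.sp b) → Q = Q'
  sep_inf : ∀ j : IntElt A N, j.y * jqModC A = 1 →
    ∀ (Q Q' : Place (IsLocalRing.ResidueField A)
      (modularFunctionFieldFullC (IsLocalRing.ResidueField A) N)) (a : IsLocalRing.ResidueField A),
      HasValue Q j.sp a →
      (∀ c : IntElt A N, c.IsInf → ∀ b : IsLocalRing.ResidueField A,
        HasValue Q c.sp b → HasValue Q' c.sp b) → Q = Q'

end

end Fermat.Agent.S37.Core
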