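import Fermat.Agent.S37.Core.Leaves
import Fermat.Agent.S37.Core.DatumLeaf
import Fermat.Agent.S37.H697.LiftLeaf
import Fermat.Agent.S37.H278.NormalAbs
import Fermat.Agent.S37.H339.LeafH1
import Fermat.Agent.S18.Mod.H216.NodeMod
import Fermat.Agent.S18

/-!
# S37 row-lead (helper37): BOARD v3 — all leaves instantiated

* `h1Leaf : Core.H1Leaf`             (D4, helper339 `H339.leaf_H1`)
* `modStatement : Core.ModStatement` (node_mod of row S18, helper216 `S18.Mod.H216.node_mod`)
* `s18Statement : Core.S18Statement` (the frozen S18, `Fermat.Agent.S18.result`)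
* `datumStatement`, `rimStatement`   (node_datum, node_rim) from
  `Core.datumLeaf` (D1), `H278.leaf_normalAbs` (D2, helper278), `H697.liftLeaf` (D3, helper697).
* `specializationExists` : the frozen statement S37;  `rawES` : raw Eichler–Shimura (export for
  rows S29 / S30 / S42), both WITHOUT hypotheses.
-/

set_option autoImplicit false
set_option synthInstance.maxHeartbeats 400000

noncomputable section

namespace Fermat.Agent.S37.Core

open ModularCurve ValuationSubring AlgebraicCurve HahnSeries IsLocalRing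

/-- **D4.** -/
theorem h1Leaf : H1Leaf := by
  intro M ℓ _ hℓ hℓM A hA x S hx X hX G hGx hGxk
  exact H339.leaf_H1 M ℓ hℓ hℓM A hA x S hx X hX.coeff_neg_one hX.coe_eq G hGx hGxk

/-- **node_mod of row S18.** -/
theorem modStatement : ModStatement := by
  intro M ℓ _ hℓ hℓM A hA
  haveI : Fact ℓ.Prime := ⟨hℓ⟩
  exact Fermat.Agent.S18.Mod.H216.node_mod M hℓM A hA

/-- **The frozen S18.** -/
theorem s18Statement : S18Statement := by
  intro M ℓ _ hℓ hℓM A hA h m hm z hmz hz
  haveI : Fact ℓ.Prime := ⟨hℓ⟩
  exact Fermat.Agent.S18.result M hℓM A hA h m hm z hmz hz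

/-- **node_datum**: a linked reduction datum with good charts at all good levels. -/
theorem datumStatement : DatumStatement :=
  datumStatement_of_leaves datumLeaf H278.leaf_normalAbs H697.liftLeaf h1Leaf modStatement

/-- **node_rim**: the place reduction map exists at all good levels. -/
theorem rimStatement : RimStatement :=
  rimStatement_of_datum datumStatement

/-- **The frozen statement S37** (Eichler–Shimura congruence relation, `SpecializationExists`). -/
theorem specializationExists (N p : ℕ) [NeZero N]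
    (hcomm : ModularCurve.HeckeOperatorsCommuteBar N) :
    letI := ModularCurve.heckeModuleBar N
    ∀ (_ : SMulCommClass (AlgebraicClosure ℚ ≃ₐ[ℚ] AlgebraicClosure ℚ) ModularCurve.HeckeAlg
      (ModularCurve.JZero N)),
      ModularCurve.SpecializationExists (K := ℚ) (L := AlgebraicClosure ℚ) N p
        (ModularCurve.JZero N) :=
  result_of_rim_s18 rimStatement s18Statement N p hcomm

/-- **Raw Eichler–Shimura on the `p`-torsion of `J₀(N)`**, without hypotheses: for every prime
`ℓ ∤ N p` and every place `A` of `ℚ̄` over `ℓ`, inertia at `A` acts trivially on `J₀(N)[p]` and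
every Frobenius `σ` at `A` satisfies `σ² - T_ℓ σ + ℓ = 0` on `J₀(N)[p]`. -/
theorem rawES (N : ℕ) [NeZero N] (p : ℕ) (ℓ : ℕ) (hℓ : ℓ.Prime) (hdvd : ¬ ℓ ∣ N * p)
    (A : ValuationSubring (AlgebraicClosure ℚ)) (hA : A.LiesOverPrime ℓ) :
    (∀ σ ∈ A.inertiaSubgroupIn ℚ, ∀ x : JZero N, (p : ℤ) • x = 0 → σ • x = x) ∧
      (∀ σ : AlgebraicClosure ℚ ≃ₐ[ℚ] AlgebraicClosure ℚ, A.IsFrobeniusAt σ ℓ →
        ∀ x : JZero N, (p : ℤ) • x = 0 →
          σ • σ • x - heckeOperatorBar N ⟨ℓ, hℓ⟩ (σ • x) + (ℓ : ℤ) • x = 0) :=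
  rawES_of_rim_s18 rimStatement s18Statement N p ℓ hℓ hdvd A hA

end Fermat.Agent.S37.Core
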